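import Fermat.Agent.MR.PLC.End.Contract

/-!
# MR / PLC : THE FINAL WIRING.  `PLStatement` from the contracts SER, SP, DESC, MET (+ S33 VAL, COVER, RIGID, PLC-ABS, PLC-END, all closed).
-/

set_option autoImplicit false
set_option linter.unusedSectionVars false
set_option linter.style.haveILetI false
set_option synthInstance.maxHeartbeats 400000
set_option maxHeartbeats 1000000

noncomputable section

namespace Fermat.Agent.MR.PLC.End

open AlgebraicCurve ModularCurve Fermat.Agent.S24 Fermat.Agent.GAL Fermat.Agent.GAL.RED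
  Fermat.Agent.DR Fermat.Agent.DR.Abs Fermat.Agent.DR.Gal Fermat.Agent.S33.Cover Fermat.Agent.S33.HeckeP
  Fermat.Agent.S36.RC Fermat.Agent.MR.PLC.Abs Fermat.Agent.GAL.Igusa Fermat.Agent.S33.GalP

theorem plStatement_of (hSer : SerStatement) (hSP : SPStatement) (hDesc : DescStatement)
    (hMet : MetStatement) : PLStatement := by
  intro M p _ _ hp hpM h5 h4 A hA S x hS hSst hx hpeu u hux hred
  haveI : Fact p.Prime := ⟨hp⟩
  haveI := Hecke.charP_residueField A hp hA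
  haveI := perfectRing_residueField p A
  haveI : Lib.RR.IsFF Kbar (FN (M * p)) := Fermat.Agent.GAL.Desc.isFF_FF_Kbar (M * p)
  haveI : Lib.RR.IsFF Kbar (FN M) := Fermat.Agent.GAL.Desc.isFF_FF_Kbar M
  haveI := Igusa.isAlgClosed_residueField A
  have hM := Conc.natCast_M_ne_zero A M p hp hpM hA
  haveI := Igusa.isFF_E (IsLocalRing.ResidueField ↥A) M hM
  have hg : Conc.GoodRed A M :=
    Conc.goodRed_of_neat A M hM Igusa.cuspUpper Igusa.cuspLower (Or.inl h4)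
  have hP := Conc.pairHyp A M p hp hpM hA hg
  obtain ⟨a₀, hN⟩ := hP.isPreNodal
  haveI : Fintype ↥(hP.filt.nodes) := hP.filt.finite_nodes.fintype
  -- RIGID
  have hrig : ∀ τ ∈ A.inertiaSubgroupIn ℚ, ∀ a : ℕ, IsCyc p τ a → ∀ s ∈ S, τ • s = a • s :=
    fun τ hτ a ha s hs => rigidStatement M p hp hpM (by omega) h4 A hA s (hS hs) τ hτ a ha
  -- SER
  obtain ⟨E, _, _, _, _, _, _, Sm, hSm, hgen, h0, hh0, hf⟩ := hSer (M * p) p hp A S x hrig hx u hux
  haveI : Lib.RR.IsFF Kbar E := Fermat.Agent.S19.ND.isFF_of_finiteDimensional Kbar (FN (M * p)) E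
  -- VAL
  have hV : ValContract (Conc.TT A M p hp hpM hA) p :=
    valContract_of (Nat.cast_ne_zero.2 hp.ne_zero) _ (Conc.TT_sep A M p hp hpM hA)
      (fin_TT_hasScales A M p hp hpM hA) (fin_TT_rankOne A M p hp hpM hA)
      (fin_TT_small A M p hp hpM hA)
  have hgen' : IntermediateField.adjoin (FN (M * p)) {y : E |
      ∃ v : kummerUnits Kbar (FN (M * p)) p, KV.mk v ∈ DeepAll (Conc.TT A M p hp hpM hA) p ∧
        y ^ p = algebraMap (FN (M * p)) E ((v : (FN (M * p))ˣ) : FN (M * p))} = ⊤ := by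
    rw [eq_top_iff, ← hgen]
    apply IntermediateField.adjoin.mono
    rintro y ⟨v, hv, hy⟩
    refine ⟨v, ?_, hy⟩
    rw [mem_DeepAll]
    intro i
    fin_cases i
    · exact (hS hv).1
    · exact (hS hv).2
  obtain ⟨T', hC, hS'⟩ := hV E hgen'
  -- COVER
  have hgenus := Fermat.Agent.S33.Val.genus_cover_kummerUnits (K := Kbar) hp.pos (fun y hy => by
    obtain ⟨v, -, hv⟩ := hy
    exact ⟨v, v.2, hv⟩) hgen'
  obtain ⟨b, a₁, hN'⟩ := hC.exists_isPreNodal hS' hN (Fermat.Agent.S33.Val.degree_poleDiv_algebraMap _) hgenus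
  have hbip : ∀ e, ((coverNodes hP.nodeData b).i₁ e).1 ≠ ((coverNodes hP.nodeData b).i₂ e).1 := by
    intro e
    show (0 : Fin 2) ≠ 1
    decide
  have hloop : ∀ e, (coverNodes hP.nodeData b).i₁ e ≠ (coverNodes hP.nodeData b).i₂ e :=
    fun e h => hbip e (congrArg Prod.fst h)
  -- SP
  have hval := hSP M p hp hpM h4 A hA E Sm hSm T' hC hS' _ (coverNodes hP.nodeData b) a₁ hN' hbip
  -- DESC
  obtain ⟨K0, F0, E0, _, _, _, _, _, B, βF, ϖ, hϖ, hBΓ, hfix, hind, hBase, hDF, hfixF⟩ :=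
    hDesc M p hp hpM A hA E Sm hSm
  -- MET
  obtain ⟨hMok, ξ, m, Ψ, hξΓ, hξ, hxξ, hΨ⟩ := hMet M p hp hpM h5 h4 A hA hg
  -- the group
  set Γ : Subgroup (SemilinearAut Kbar E) := Sm.Φ.range with hΓdef
  have hΓ : GalAct T' B Γ := by
    refine ⟨hBΓ, fun y hy => hfix y fun τ => hy _ ⟨τ, rfl⟩, fun y => ?_, ?_⟩
    · refine (hSm.orb y).subset ?_
      rintro _ ⟨⟨_, τ, rfl⟩, rfl⟩
      exact ⟨τ, rfl⟩
    · rintro _ ⟨τ, rfl⟩ w y hy
      exact hval τ w y hy
  have hcomm : Comm (FN (M * p)) Γ := by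
    rintro _ ⟨τ, rfl⟩ g z
    exact hSm.comm τ g z
  have hfixF' : ∀ y : FN (M * p),
      (∀ γ ∈ Γ, γ • algebraMap (FN (M * p)) E y = algebraMap (FN (M * p)) E y) →
        y ∈ Set.range βF := by
    intro y hy
    refine hfixF y fun τ hτ => ?_
    have h1 := hy _ ⟨⟨τ, hτ⟩, rfl⟩
    rw [hSm.res] at h1
    exact (algebraMap (FN (M * p)) E).injective h1
  have hinvF : ∀ y : FN (M * p), (∀ τ ∈ A.inertiaSubgroupIn ℚ, gal (M * p) τ • y = y) →
      Inv Γ (algebraMap (FN (M * p)) E y) := by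
    rintro y hy _ ⟨τ, rfl⟩
    rw [hSm.res, hy _ τ.2]
  have hB' : Base T' ϖ := base_cover hC hBase
  -- ABS
  have hU : Unram T' Γ (p : Kbar) := by
    rw [← hϖ]
    exact unram_of_abs hC hN'.cart hN'.sep hB' hind hΓ hDF hcomm hfixF'
  have hξ' : IsCoord T' (algebraMap (FN (M * p)) E ξ) (coverNodes hP.nodeData b) :=
    isCoord_cover hC (Conc.TT_sep A M p hp hpM hA) hS' hξ
      (Fermat.Agent.S33.Val.degree_poleDiv_algebraMap _) b
  have hΨ' : IsMeter T' (algebraMap K0 Kbar ϖ) (algebraMap (FN (M * p)) E ξ)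
      (coverNodes hP.nodeData b) m (fun w => algebraMap (FN (M * p)) E (Ψ w.1)) := by
    rw [hϖ]
    exact isMeter_cover hC hΨ b
  have hxξ' : ∀ P : Place Kbar E, 0 ≤ P.ord (algebraMap (FN (M * p)) E ξ) →
      0 ≤ P.ord (algebraMap (FN (M * p)) E (Conc.xC M p)) := by
    intro P hP0
    rw [P.ord_restrict] at hP0 ⊢
    have he : 0 < (P.ramificationIndex (FN (M * p)) : ℤ) := by
      exact_mod_cast P.ramificationIndex_pos (F := FN (M * p))
    exact mul_nonneg he.le (hxξ _ (nonneg_of_mul_nonneg_right hP0 he))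
  have hSl : Slope T' Γ (p : Kbar) p (coverNodes hP.nodeData b) := by
    rw [← hϖ]
    exact slope_of_abs hC hN' hloop hB' hind hΓ hDF hcomm hfixF'
      (hinvF _ fun τ _ => Conc.gal_xC M p τ) (hinvF ξ hξΓ) hξ' hxξ' hΨ' hp.pos
  -- END
  have hlc : IsLC Γ Sm.lc := by
    refine ⟨Sm.lc_mul, Sm.lc_algebraMap, ?_⟩
    rintro _ ⟨τ, rfl⟩ z
    exact Sm.lc_smul τ z
  have hL : Lifts A M p Γ := fun τ hτ =>
    ⟨Sm.Φ ⟨τ, hτ⟩, ⟨_, rfl⟩, fun a => hSm.base ⟨τ, hτ⟩ a, fun y => hSm.res ⟨τ, hτ⟩ y⟩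
  have hf' : Inv Γ (algebraMap (FN (M * p)) E ((u : (FN (M * p))ˣ) : FN (M * p)) * h0 ^ p) := by
    rintro _ ⟨τ, rfl⟩
    exact hf τ
  exact slopeMeter_of_cover hC (A_eq_of_splitCover hC) hlc hcomm hU hSl hL hMok hpeu u hux hh0 hf'
    hred

end Fermat.Agent.MR.PLC.End
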