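import Fermat.Agent.MR.PLC.End.Const
import Fermat.Agent.MR.PLC.Abs.Cover

/-!
# MR / PLC / End : the inputs `Slope`, `Unram` of sub-block END from the output of sub-block ABS (generic glue).

* `slope_of_abs`, `unram_of_abs`;
* `SplitCover.redA_eq`, `base_cover` : `Abs.Base` passes from `T` to a split cover `T'` with the same ring of constants.
-/

set_option autoImplicit false
set_option linter.unusedSectionVars false

noncomputable section

namespace Fermat.Agent.MR.PLC.End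

open AlgebraicCurve Fermat.Agent.Lib.RR Fermat.Agent.GAL.RED Fermat.Agent.DR.Abs Fermat.Agent.S36.RC
  Fermat.Agent.S36.Abs Fermat.Agent.S33.Cover Fermat.Agent.MR.PLC.Abs

variable {K0 F0 E0 K F E k : Type*} [Field K0] [Field F0] [Field E0] [Algebra K0 E0] [Field K]
  [Field F] [Field E] [Algebra K F] [Algebra K E] [Algebra F E] [IsScalarTower K F E]
  [Algebra K0 K] [Field k] {ι : Type*} {Fb : ι → Type*} [∀ i, Field (Fb i)]
  [∀ i, Algebra k (Fb i)]
  {T : MultiRed K F k Fb} {T' : MultiRed K E k (fun j : ι × (E ≃ₐ[F] E) => Fb j.1)}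
  {B : BC K0 E0 K E} {ϖ : K0} {Γ : Subgroup (SemilinearAut K E)} {βF : F0 →+* F}

/-- the reductions of the constants agree. -/
theorem redA_eq_of_splitCover [Nonempty ι] (h : SplitCover T T') (a : K) : T'.redA a = T.redA a := by
  obtain ⟨i⟩ := ‹Nonempty ι›
  have h1 := h.red_algebraMap i 1 (algebraMap K F a)
  rw [← IsScalarTower.algebraMap_apply, (T'.R (i, 1)).red_algebraMap', (T.R i).red_algebraMap',
    T'.redA_eq, T.redA_eq] at h1
  exact (algebraMap k (Fb i)).injective h1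

theorem A_eq_of_splitCover [Nonempty ι] (h : SplitCover T T') : T'.A = T.A := by
  obtain ⟨i⟩ := ‹Nonempty ι›
  ext a
  have h1 := h.mem_iff i 1 (algebraMap K F a)
  rw [← IsScalarTower.algebraMap_apply, (T'.R (i, 1)).algebraMap_mem_iff,
    (T.R i).algebraMap_mem_iff, T'.A_eq, T.A_eq] at h1
  exact h1

theorem base_cover [Nonempty ι] (h : SplitCover T T') (hB : Base T ϖ) : Base T' ϖ where
  ne := hB.ne
  mem := by rw [A_eq_of_splitCover h]; exact hB.mem
  redA := by rw [redA_eq_of_splitCover h]; exact hB.redA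
  noeth := by rw [A_eq_of_splitCover h]; exact hB.noeth
  resA := by
    intro c
    obtain ⟨a, ha, hc⟩ := hB.resA c
    exact ⟨a, by rw [A_eq_of_splitCover h]; exact ha, by rw [redA_eq_of_splitCover h]; exact hc⟩
  arch := by
    intro b
    obtain ⟨s, hs⟩ := hB.arch b
    exact ⟨s, by rw [A_eq_of_splitCover h]; exact hs⟩

variable [FiniteDimensional F E] [IsGalois F E]
  [Fintype ι] [IsFF K E] [IsAlgClosed K] [∀ i, IsFF k (Fb i)] [IsAlgClosed k]

theorem unram_of_abs (h : SplitCover T T') (hC : T'.IsCartesian) (hS : T'.Sep) (hB : Base T' ϖ)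
    (hind : ∀ (n : ℕ) (z : Fin n → E0), LinearIndependent K0 z →
      LinearIndependent K (fun i => B.β (z i)))
    (hΓ : GalAct T' B Γ) (hDF : FactD T βF ϖ)
    (hcomm : ∀ γ ∈ Γ, ∀ (g : E ≃ₐ[F] E) (y : E), γ • g y = g (γ • y))
    (hfixF : ∀ y : F, (∀ γ ∈ Γ, γ • algebraMap F E y = algebraMap F E y) → y ∈ Set.range βF) :
    Unram T' Γ (algebraMap K0 K ϖ) := by
  intro z hz hinv w
  obtain ⟨z0, rfl⟩ := hΓ.fix z hinv
  exact (rat_cover h hC hS hB hind hΓ hDF hcomm hfixF).factD w z0 (by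
    rintro rfl
    exact hz (map_zero _))

theorem slope_of_abs (h : SplitCover T T') {Nd' : Type*} [Fintype Nd'] {x' : E}
    {N' : NodeData k (fun j : ι × (E ≃ₐ[F] E) => Fb j.1) Nd'} {a₁ : ℕ}
    (hN' : IsPreNodal T' x' N' a₁) (hloop : ∀ e, N'.i₁ e ≠ N'.i₂ e) (hB : Base T' ϖ)
    (hind : ∀ (n : ℕ) (z : Fin n → E0), LinearIndependent K0 z →
      LinearIndependent K (fun i => B.β (z i)))
    (hΓ : GalAct T' B Γ) (hDF : FactD T βF ϖ)
    (hcomm : ∀ γ ∈ Γ, ∀ (g : E ≃ₐ[F] E) (y : E), γ • g y = g (γ • y))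
    (hfixF : ∀ y : F, (∀ γ ∈ Γ, γ • algebraMap F E y = algebraMap F E y) → y ∈ Set.range βF)
    (hx : Inv Γ x') {ξ : E} (hξΓ : Inv Γ ξ) (hξ : IsCoord T' ξ N')
    (hxξ : ∀ P : Place K E, 0 ≤ P.ord ξ → 0 ≤ P.ord x') {m : ℕ}
    {Ψ : ι × (E ≃ₐ[F] E) → E} (hΨ : IsMeter T' (algebraMap K0 K ϖ) ξ N' m Ψ)
    {p : ℕ} (hp : 0 < p) : Slope T' Γ (algebraMap K0 K ϖ) p N' := by
  intro f hf0 hinv hdiv
  obtain ⟨f0, rfl⟩ := hΓ.fix f hinv
  obtain ⟨x0, hx0⟩ := hΓ.fix x' hx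
  obtain ⟨ξ0, rfl⟩ := hΓ.fix ξ hξΓ
  exact slope_formula_cover h hN' hloop hB hind hΓ hDF hcomm hfixF hx0 hξ hxξ hΨ hp (by
    rintro rfl
    exact hf0 (map_zero _)) hdiv

end Fermat.Agent.MR.PLC.End
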