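import Fermat.Agent.MR.PLC.End.Conc
import Fermat.Agent.MR.PLC.End.Wire
import Fermat.Agent.MR.PLC.Ser.Canon
import Fermat.Agent.MR.Rigid

/-!
# MR / PLC : the contracts of the sub-blocks SER, SP, DESC, MET, in the exact form consumed by the final wiring (`End/Final.lean`).

* `IsSerCover A N Sm` : `Sm` is a series model of a cover `E` of `FN N` for the inertia group `I` of `A`: `Φ τ` is `τ` on the constants, extends `gal N τ`,
  commutes with `Gal(E / FN N)`, has finite orbits.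
* `SerStatement`  (SER, helper40)  : the cover `E = F(S^(1/p))` with its series model and the canonical representative of `x`.
* `SPStatement`   (SP, helper75)   : `Φ τ` preserves all the valuation rings of a split nodal family on `E`.
* `DescStatement` (DESC, helper49) : the rational structures `K0 = Kbar ^ I`, `F0`, `E0`.
* `MetStatement`  (MET, helper84 + helper53) : the coordinate, the meter, the orders of the reduced meter.
-/

set_option autoImplicit false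
set_option linter.unusedSectionVars false
set_option synthInstance.maxHeartbeats 400000

noncomputable section

namespace Fermat.Agent.MR.PLC.End

open AlgebraicCurve ModularCurve Fermat.Agent.S24 Fermat.Agent.GAL Fermat.Agent.GAL.RED
  Fermat.Agent.DR Fermat.Agent.DR.Abs Fermat.Agent.DR.Gal Fermat.Agent.S33.Cover Fermat.Agent.S33.HeckeP
  Fermat.Agent.S36.RC Fermat.Agent.MR.PLC.Abs

/-- a series model, for the inertia group of `A`, of a cover of `FN N`. -/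
structure IsSerCover (A : ValuationSubring Kbar) (N : ℕ) [NeZero N] {E : Type} [Field E]
    [Algebra Kbar E] [Algebra (FN N) E]
    (Sm : Ser.SerModel Kbar E ↥(A.inertiaSubgroupIn ℚ)) : Prop where
  base : ∀ (τ : ↥(A.inertiaSubgroupIn ℚ)) (a : Kbar),
    SemilinearAut.baseAut (Sm.Φ τ) a = (τ : GQ) a
  res : ∀ (τ : ↥(A.inertiaSubgroupIn ℚ)) (y : FN N),
    Sm.Φ τ • algebraMap (FN N) E y = algebraMap (FN N) E (gal N (τ : GQ) • y)
  comm : ∀ (τ : ↥(A.inertiaSubgroupIn ℚ)) (g : E ≃ₐ[FN N] E) (z : E),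
    Sm.Φ τ • g z = g (Sm.Φ τ • z)
  orb : ∀ y : E, (Set.range fun τ : ↥(A.inertiaSubgroupIn ℚ) => Sm.Φ τ • y).Finite
  /-- on `FN N` the series model is the tautological inclusion `FN N ⊆ Kbar((q))` -/
  incl : ∀ y : FN N, Sm.ι (algebraMap (FN N) E y) = (y : LaurentSeries Kbar)

/-- **(SER)** -/
def SerStatement : Prop :=
  ∀ (N p : ℕ) [NeZero N] [NeZero p], p.Prime → ∀ (A : ValuationSubring Kbar)
    (S : AddSubgroup (KV Kbar (FN N) p)) (x : KV Kbar (FN N) p),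
    (∀ τ ∈ A.inertiaSubgroupIn ℚ, ∀ a : ℕ, IsCyc p τ a → ∀ s ∈ S, τ • s = a • s) →
    (∀ τ ∈ A.inertiaSubgroupIn ℚ, τ • x - x ∈ S) →
    ∀ u : kummerUnits Kbar (FN N) p, KV.mk u = x →
    ∃ (E : Type) (_ : Field E) (_ : Algebra Kbar E) (_ : Algebra (FN N) E)
      (_ : IsScalarTower Kbar (FN N) E) (_ : FiniteDimensional (FN N) E) (_ : IsGalois (FN N) E)
      (Sm : Ser.SerModel Kbar E ↥(A.inertiaSubgroupIn ℚ)),
      IsSerCover A N Sm ∧
      IntermediateField.adjoin (FN N) {y : E | ∃ v : kummerUnits Kbar (FN N) p, KV.mk v ∈ S ∧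
        y ^ p = algebraMap (FN N) E ((v : (FN N)ˣ) : FN N)} = ⊤ ∧
      ∃ h0 : E, h0 ≠ 0 ∧ ∀ τ : ↥(A.inertiaSubgroupIn ℚ),
        Sm.Φ τ • (algebraMap (FN N) E ((u : (FN N)ˣ) : FN N) * h0 ^ p) =
          algebraMap (FN N) E ((u : (FN N)ˣ) : FN N) * h0 ^ p

/-- **(SP)** -/
def SPStatement : Prop :=
  ∀ (M p : ℕ) [NeZero M] [NeZero p] (hp : p.Prime) (hpM : ¬ p ∣ M), 4 ∣ M →
    ∀ (A : ValuationSubring Kbar) (hA : A.LiesOverPrime p)
      [Lib.RR.IsFF (kk A) (Igusa.E (kk A) M)] [IsAlgClosed (kk A)]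
      (E : Type) [Field E] [Algebra Kbar E] [Algebra (FN (M * p)) E]
      [IsScalarTower Kbar (FN (M * p)) E] [FiniteDimensional (FN (M * p)) E]
      [IsGalois (FN (M * p)) E] [Lib.RR.IsFF Kbar E]
      (Sm : Ser.SerModel Kbar E ↥(A.inertiaSubgroupIn ℚ)), IsSerCover A (M * p) Sm →
    ∀ (T' : MultiRed Kbar E (kk A)
        (fun j : Fin 2 × (E ≃ₐ[FN (M * p)] E) => (fun _ : Fin 2 => Igusa.E (kk A) M) j.1)),
      SplitCover (Conc.TT A M p hp hpM hA) T' → T'.Sep →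
    ∀ (Nd' : Type) [Fintype Nd']
      (N' : NodeData (kk A)
        (fun j : Fin 2 × (E ≃ₐ[FN (M * p)] E) => (fun _ : Fin 2 => Igusa.E (kk A) M) j.1) Nd')
      (a₁ : ℕ), IsPreNodal T' (algebraMap (FN (M * p)) E (Conc.xC M p)) N' a₁ →
      (∀ e, (N'.i₁ e).1 ≠ (N'.i₂ e).1) →
    ∀ (τ : ↥(A.inertiaSubgroupIn ℚ)) (w : Fin 2 × (E ≃ₐ[FN (M * p)] E)) (y : E),
      y ∈ (T'.R w).O → Sm.Φ τ • y ∈ (T'.R w).O

/-- **(DESC)** -/
def DescStatement : Prop :=
  ∀ (M p : ℕ) [NeZero M] [NeZero p] (hp : p.Prime) (hpM : ¬ p ∣ M)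
    (A : ValuationSubring Kbar) (hA : A.LiesOverPrime p)
    (E : Type) [Field E] [Algebra Kbar E] [Algebra (FN (M * p)) E]
    [IsScalarTower Kbar (FN (M * p)) E] [FiniteDimensional (FN (M * p)) E]
    (Sm : Ser.SerModel Kbar E ↥(A.inertiaSubgroupIn ℚ)), IsSerCover A (M * p) Sm →
    ∃ (K0 F0 E0 : Type) (_ : Field K0) (_ : Field F0) (_ : Field E0) (_ : Algebra K0 E0)
      (_ : Algebra K0 Kbar) (B : BC K0 E0 Kbar E) (βF : F0 →+* FN (M * p)) (ϖ : K0),
      algebraMap K0 Kbar ϖ = (p : Kbar) ∧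
      B.Γ = ((Sm.Φ.range : Subgroup (SemilinearAut Kbar E)) : Set (SemilinearAut Kbar E)) ∧
      (∀ y : E, (∀ τ : ↥(A.inertiaSubgroupIn ℚ), Sm.Φ τ • y = y) → y ∈ Set.range B.β) ∧
      (∀ (n : ℕ) (z : Fin n → E0), LinearIndependent K0 z →
        LinearIndependent Kbar (fun i => B.β (z i))) ∧
      Base (Conc.TT A M p hp hpM hA) ϖ ∧
      FactD (Conc.TT A M p hp hpM hA) βF ϖ ∧
      (∀ y : FN (M * p), (∀ τ ∈ A.inertiaSubgroupIn ℚ, gal (M * p) τ • y = y) → y ∈ Set.range βF)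

/-- what MET delivers for a node datum `N` of `Conc.TT A M p`. -/
structure MetOut (A : ValuationSubring Kbar) (M p : ℕ) [NeZero M] [NeZero p] (hp : p.Prime)
    (hpM : ¬ p ∣ M) (hA : A.LiesOverPrime p) [Lib.RR.IsFF (kk A) (Igusa.E (kk A) M)]
    [Lib.RR.IsFF Kbar (FN (M * p))] {Nd : Type}
    (N : NodeData (kk A) (fun _ : Fin 2 => Igusa.E (kk A) M) Nd) : Prop where
  ok : MeterOK A M p N
  ex : ∃ (ξ : FN (M * p)) (m : ℕ) (Ψ : Fin 2 → FN (M * p)),
    (∀ τ ∈ A.inertiaSubgroupIn ℚ, gal (M * p) τ • ξ = ξ) ∧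
    IsCoord (Conc.TT A M p hp hpM hA) ξ N ∧
    (∀ P : Place Kbar (FN (M * p)), 0 ≤ P.ord ξ → 0 ≤ P.ord (Conc.xC M p)) ∧
    IsMeter (Conc.TT A M p hp hpM hA) (p : Kbar) ξ N m Ψ

/-- **(MET)** -/
def MetStatement : Prop :=
  ∀ (M p : ℕ) [NeZero M] [NeZero p] (hp : p.Prime) (hpM : ¬ p ∣ M), 5 ≤ p → 4 ∣ M →
    ∀ (A : ValuationSubring Kbar) (hA : A.LiesOverPrime p)
      [Fact p.Prime] [CharP (kk A) p] [PerfectRing (kk A) p] [IsAlgClosed (kk A)]
      [Lib.RR.IsFF (kk A) (Igusa.E (kk A) M)] [Lib.RR.IsFF Kbar (FN (M * p))]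
      [Lib.RR.IsFF Kbar (FN M)] (hg : Conc.GoodRed A M),
      MetOut A M p hp hpM hA (Conc.pairHyp A M p hp hpM hA hg).nodeData

end Fermat.Agent.MR.PLC.End
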