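import Fermat.Agent.S33.Cover.Defs
import Fermat.Agent.GAL.Model

/-!
# MR / PLC / End : from the slope formula on the cover to constant slopes on the base.  Abstract part.

`K` algebraically closed, valued; `F / K` a function field with a family of reductions `T` (index set `ι`), `E / F` a finite Galois extension with group
`G`, in which all the valuations of `T` split completely (`SplitCover T T'`).  `Γ` a group of semilinear automorphisms of `E` commuting with `G`
("inertia"), `lc : E → K` a `Γ`-equivariant multiplicative retraction of `K → E` ("leading coefficient").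

* `IsLC Γ lc`;
* `Unram T' Γ ϖ`    : the valuations of `T'` are unramified on `E ^ Γ`, with uniformiser `ϖ`;
* `Slope T' Γ ϖ p N'` : the slope formula for the `Γ`-invariant functions whose divisor is divisible by `p`;
* `kummer_class`     : `f = u h ^ p ∈ E ^ Γ`, `u ∈ F`.  For `g ∈ G` : `g f / f = β ^ p h_g ^ p`, `β ∈ K`, `β ^ p ∈ K ^ Γ`, `h_g ∈ E ^ Γ`, and every
                       `γ ∈ Γ` with `γ u ∈ u F ^ p` fixes `β`;
* `const_slopes`     : **main theorem**: if all these Kummer classes `β ^ p` have valuation divisible by `p`, the slopes of `u` are constant.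
-/

set_option autoImplicit false
set_option linter.unusedSectionVars false

noncomputable section

namespace Fermat.Agent.MR.PLC.End

open AlgebraicCurve Fermat.Agent.Lib.RR Fermat.Agent.GAL.RED Fermat.Agent.DR.Abs Fermat.Agent.S33.Cover

variable {K F E k : Type*} [Field K] [Field F] [Field E] [Algebra K F] [Algebra K E] [Algebra F E]
  [IsScalarTower K F E] [Field k] {ι : Type*} {Fb : ι → Type*} [∀ i, Field (Fb i)]
  [∀ i, Algebra k (Fb i)] {Nd : Type*}

/-- `z` is invariant under `Γ`. -/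
def Inv (Γ : Subgroup (SemilinearAut K E)) (z : E) : Prop := ∀ γ ∈ Γ, γ • z = z

/-- a "leading coefficient". -/
structure IsLC (Γ : Subgroup (SemilinearAut K E)) (lc : E → K) : Prop where
  mul : ∀ y z, lc (y * z) = lc y * lc z
  const : ∀ c : K, lc (algebraMap K E c) = c
  smul : ∀ γ ∈ Γ, ∀ z, lc (γ • z) = SemilinearAut.baseAut γ (lc z)

/-- the valuations are unramified on the invariants. -/
def Unram {Ω : Type*} {Fb' : Ω → Type*} [∀ w, Field (Fb' w)] [∀ w, Algebra k (Fb' w)]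
    (T' : MultiRed K E k Fb') (Γ : Subgroup (SemilinearAut K E)) (ϖ : K) : Prop :=
  ∀ z : E, z ≠ 0 → Inv Γ z → ∀ w, ∃ n : ℤ, (T'.R w).red (z / algebraMap K E ϖ ^ n) ≠ 0

/-- the slope formula for the invariant functions. -/
def Slope {Ω : Type*} {Fb' : Ω → Type*} [∀ w, Field (Fb' w)] [∀ w, Algebra k (Fb' w)] {Nd' : Type*}
    (T' : MultiRed K E k Fb') (Γ : Subgroup (SemilinearAut K E)) (ϖ : K) (p : ℕ)
    (N' : NodeData k Fb' Nd') : Prop :=
  ∀ f : E, f ≠ 0 → Inv Γ f → (∀ P : Place K E, (p : ℤ) ∣ P.ord f) →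
    ∃ i : Ω → ℤ, (∀ w, (T'.R w).red (f / algebraMap K E ϖ ^ i w) ≠ 0) ∧
    (∀ e, (p : ℤ) ∣ (N'.p₁ e).ord ((T'.R (N'.i₁ e)).red (f / algebraMap K E ϖ ^ i (N'.i₁ e))) -
      (i (N'.i₂ e) - i (N'.i₁ e))) ∧
    (∀ e, (p : ℤ) ∣ (N'.p₂ e).ord ((T'.R (N'.i₂ e)).red (f / algebraMap K E ϖ ^ i (N'.i₂ e))) -
      (i (N'.i₁ e) - i (N'.i₂ e))) ∧
    ∀ (w : Ω) (P : Place k (Fb' w)), (∀ s, N'.branch s ≠ ⟨w, P⟩) →
      (p : ℤ) ∣ P.ord ((T'.R w).red (f / algebraMap K E ϖ ^ i w))

namespace IsLC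

variable {Γ : Subgroup (SemilinearAut K E)} {lc : E → K}

theorem one (h : IsLC Γ lc) : lc 1 = 1 := by
  have := h.const 1
  rwa [map_one] at this

theorem ne_zero (h : IsLC Γ lc) {z : E} (hz : z ≠ 0) : lc z ≠ 0 := by
  intro h0
  have := h.mul z z⁻¹
  rw [mul_inv_cancel₀ hz, h.one, h0, zero_mul] at this
  exact one_ne_zero this

theorem pow (h : IsLC Γ lc) (z : E) (n : ℕ) : lc (z ^ n) = lc z ^ n := by
  induction n with
  | zero => rw [pow_zero, pow_zero, h.one]
  | succ n ih => rw [pow_succ, pow_succ, h.mul, ih]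

theorem inv (h : IsLC Γ lc) (z : E) : lc z⁻¹ = (lc z)⁻¹ := by
  rcases eq_or_ne z 0 with rfl | hz
  · have := h.const 0
    rw [map_zero] at this
    rw [inv_zero, this, inv_zero]
  · have := h.mul z z⁻¹
    rw [mul_inv_cancel₀ hz, h.one] at this
    exact eq_inv_of_mul_eq_one_right this.symm

theorem div (h : IsLC Γ lc) (y z : E) : lc (y / z) = lc y / lc z := by
  rw [div_eq_mul_inv, h.mul, h.inv, div_eq_mul_inv]

end IsLC

/-- a root of unity of `E` is a constant. -/
theorem exists_const_of_pow_eq_one [IsAlgClosed K] {p : ℕ} (hp : 0 < p) {z : E} (hz : z ^ p = 1) :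
    ∃ c : K, z = algebraMap K E c := by
  have hint : IsIntegral K z :=
    ⟨Polynomial.X ^ p - 1, Polynomial.monic_X_pow_sub_C (1 : K) hp.ne', by simp [hz]⟩
  have hdeg := IsAlgClosed.degree_eq_one_of_irreducible K (minpoly.irreducible hint)
  obtain ⟨c, hc⟩ := minpoly.mem_range_of_degree_eq_one K z hdeg
  exact ⟨c, hc.symm⟩

/-- **the normalised `p`-th root of an invariant function is invariant.** -/
theorem inv_of_pow [IsAlgClosed K] {Γ : Subgroup (SemilinearAut K E)} {lc : E → K} (h : IsLC Γ lc)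
    {p : ℕ} (hp : 0 < p) {z : E} (hlc : lc z = 1) (hz : Inv Γ (z ^ p)) : Inv Γ z := by
  intro γ hγ
  have hz0 : z ≠ 0 := by
    rintro rfl
    have := h.const 0
    rw [map_zero, hlc] at this
    exact one_ne_zero this
  have h1 : ((γ • z) / z) ^ p = 1 := by
    rw [div_pow, ← smul_pow', hz γ hγ, div_self (pow_ne_zero _ hz0)]
  obtain ⟨c, hc⟩ := exists_const_of_pow_eq_one (K := K) hp h1
  have h2 : lc ((γ • z) / z) = 1 := by
    rw [h.div, h.smul γ hγ, hlc, map_one, div_one]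
  rw [hc, h.const] at h2
  rw [h2, map_one] at hc
  exact (div_eq_one_iff_eq hz0).1 hc

/-- `Γ` commutes with `G = Gal(E / F)`. -/
def Comm (F : Type*) [Field F] [Algebra F E] (Γ : Subgroup (SemilinearAut K E)) : Prop :=
  ∀ γ ∈ Γ, ∀ (g : E ≃ₐ[F] E) (z : E), γ • g z = g (γ • z)

theorem Inv.const {Γ : Subgroup (SemilinearAut K E)} {c : K}
    (hc : ∀ γ ∈ Γ, SemilinearAut.baseAut γ c = c) : Inv Γ (algebraMap K E c) := by
  intro γ hγ
  rw [SemilinearAut.smul_algebraMap, hc γ hγ]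

theorem Inv.mul {Γ : Subgroup (SemilinearAut K E)} {y z : E} (hy : Inv Γ y) (hz : Inv Γ z) :
    Inv Γ (y * z) := by
  intro γ hγ
  rw [smul_mul', hy γ hγ, hz γ hγ]

theorem Inv.inv {Γ : Subgroup (SemilinearAut K E)} {y : E} (hy : Inv Γ y) : Inv Γ y⁻¹ := by
  intro γ hγ
  rw [smul_inv'', hy γ hγ]

theorem Inv.div {Γ : Subgroup (SemilinearAut K E)} {y z : E} (hy : Inv Γ y) (hz : Inv Γ z) :
    Inv Γ (y / z) := by
  rw [div_eq_mul_inv]
  exact hy.mul hz.inv

theorem Inv.map {Γ : Subgroup (SemilinearAut K E)} (hc : Comm F Γ) {y : E} (hy : Inv Γ y)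
    (g : E ≃ₐ[F] E) : Inv Γ (g y) := by
  intro γ hγ
  rw [hc γ hγ, hy γ hγ]

/-- **The Kummer classes.** -/
theorem kummer_class [IsAlgClosed K] {Γ : Subgroup (SemilinearAut K E)} {lc : E → K}
    (h : IsLC Γ lc) (hc : Comm F Γ) {p : ℕ} (hp : 0 < p) {u : F} (hu : u ≠ 0) {h0 : E}
    (hh0 : h0 ≠ 0) (hf : Inv Γ (algebraMap F E u * h0 ^ p)) (g : E ≃ₐ[F] E) :
    ∃ (β : K) (hg : E), β ≠ 0 ∧ hg ≠ 0 ∧ Inv Γ hg ∧
      (∀ γ ∈ Γ, SemilinearAut.baseAut γ (β ^ p) = β ^ p) ∧
      g (algebraMap F E u * h0 ^ p) =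
        algebraMap K E (β ^ p) * hg ^ p * (algebraMap F E u * h0 ^ p) ∧
      ∀ γ ∈ Γ, (∃ r : F, r ≠ 0 ∧ γ • algebraMap F E u = algebraMap F E (u * r ^ p)) →
        SemilinearAut.baseAut γ β = β := by
  have hu' : algebraMap F E u ≠ 0 := (map_ne_zero _).2 hu
  have hgh0 : g h0 ≠ 0 := (map_ne_zero _).2 hh0
  set h' : E := g h0 / h0 with hh'
  have hh'0 : h' ≠ 0 := div_ne_zero hgh0 hh0
  have hβ0 : lc h' ≠ 0 := h.ne_zero hh'0
  have hβE : algebraMap K E (lc h') ≠ 0 := (map_ne_zero _).2 hβ0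
  -- `g f = h' ^ p * f`
  have hgf : g (algebraMap F E u * h0 ^ p) = h' ^ p * (algebraMap F E u * h0 ^ p) := by
    rw [map_mul, AlgEquiv.commutes, map_pow, hh', div_pow]
    field_simp
  have hf0 : algebraMap F E u * h0 ^ p ≠ 0 := mul_ne_zero hu' (pow_ne_zero _ hh0)
  have hinv : Inv Γ (h' ^ p) := by
    have h1 : h' ^ p = g (algebraMap F E u * h0 ^ p) / (algebraMap F E u * h0 ^ p) := by
      rw [hgf, mul_div_assoc, div_self hf0, mul_one]
    rw [h1]
    exact (hf.map hc g).div hf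
  have hfix : ∀ γ ∈ Γ, SemilinearAut.baseAut γ (lc h' ^ p) = lc h' ^ p := by
    intro γ hγ
    rw [← h.pow, ← h.smul γ hγ, hinv γ hγ]
  refine ⟨lc h', h' / algebraMap K E (lc h'), hβ0, div_ne_zero hh'0 hβE, ?_, hfix, ?_, ?_⟩
  · refine inv_of_pow h hp ?_ ?_
    · rw [h.div, h.const, div_self hβ0]
    · rw [div_pow, ← map_pow]
      exact hinv.div (Inv.const hfix)
  · rw [hgf, map_pow, ← mul_pow, mul_div_cancel₀ _ hβE]
  · rintro γ hγ ⟨r, hr, hγu⟩
    have hr' : algebraMap F E r ≠ 0 := (map_ne_zero _).2 hr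
    have hγh0 : γ • h0 ≠ 0 := by
      intro h1
      apply hh0
      have := congrArg (fun z => γ⁻¹ • z) h1
      simpa using this
    -- `(γ h0 * r / h0) ^ p = 1`
    have h1 : ((γ • h0) * algebraMap F E r / h0) ^ p = 1 := by
      have h2 := hf γ hγ
      rw [smul_mul', smul_pow', hγu, map_mul, map_pow] at h2
      rw [div_pow, mul_pow, div_eq_one_iff_eq (pow_ne_zero _ hh0)]
      apply mul_left_cancel₀ hu'
      rw [← h2]
      ring
    obtain ⟨c, hc'⟩ := exists_const_of_pow_eq_one (K := K) hp h1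
    have hc0 : algebraMap K E c ≠ 0 := by
      rw [← hc']
      exact div_ne_zero (mul_ne_zero hγh0 hr') hh0
    have h3 : γ • h0 = algebraMap K E c * h0 / algebraMap F E r := by
      rw [← hc']
      field_simp
    have h4 : γ • h' = h' := by
      rw [hh', smul_div₀', hc γ hγ, h3, map_div₀, map_mul, AlgEquiv.commutes,
        IsScalarTower.algebraMap_apply K F E c, AlgEquiv.commutes,
        ← IsScalarTower.algebraMap_apply K F E c]
      field_simp
    rw [← h.smul γ hγ, h4]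

end Fermat.Agent.MR.PLC.End
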