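import Fermat.Agent.MR.PLC.End.Const
import Fermat.Agent.MR.Interface

/-!
# MR / PLC / End : constant slopes in meter form, for the pair of reductions `Conc.TT A M p` of `FN (M * p)`.

`slopeMeter_of_cover` : **output of sub-block END**.  All the inputs (cover `E`, split family `T'`, group `Γ`, leading coefficient, unramifiedness, slope formula,
canonical representative, lifts of the inertia group, orders of the meter) are explicit hypotheses.
-/

set_option autoImplicit false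
set_option linter.unusedSectionVars false

noncomputable section

namespace Fermat.Agent.MR.PLC.End

open AlgebraicCurve ModularCurve Fermat.Agent.S24 Fermat.Agent.GAL Fermat.Agent.GAL.RED
  Fermat.Agent.DR Fermat.Agent.DR.Abs Fermat.Agent.DR.Gal Fermat.Agent.S33.Cover Fermat.Agent.S33.HeckeP

variable (A : ValuationSubring Kbar) (M p : ℕ) [NeZero M] [NeZero p] (hp : p.Prime)
  (hpM : ¬ p ∣ M) (hA : A.LiesOverPrime p)

/-- every element of the inertia group lifts to `Γ`. -/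
def Lifts {E : Type*} [Field E] [Algebra Kbar E] [Algebra (FN (M * p)) E]
    (Γ : Subgroup (SemilinearAut Kbar E)) : Prop :=
  ∀ τ ∈ A.inertiaSubgroupIn ℚ, ∃ γ ∈ Γ, (∀ a : Kbar, SemilinearAut.baseAut γ a = τ a) ∧
    ∀ y : FN (M * p), γ • algebraMap (FN (M * p)) E y = algebraMap (FN (M * p)) E (gal (M * p) τ • y)

/-- the orders of the meter: `12 (p + 1)` at the first branches of the nodes, `0` at the other non cuspidal places. -/
structure MeterOK {Nd : Type*}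
    (N : NodeData (kk A) (fun _ : Fin 2 => Igusa.E (kk A) M) Nd) : Prop where
  i₁ : ∀ e, N.i₁ e = 0
  i₂ : ∀ e, N.i₂ e = 1
  noncusp : ∀ e, 0 ≤ (N.p₁ e : Place (kk A) (Igusa.E (kk A) M)).ord (Igusa.jb (kk A) M)
  node : ∀ ψ : Igusa.E (kk A) M, (ψ : LaurentSeries (kk A)) = meterS (kk A) p →
    ∀ e, (N.p₁ e : Place (kk A) (Igusa.E (kk A) M)).ord ψ = 12 * ((p : ℤ) + 1)
  other : ∀ ψ : Igusa.E (kk A) M, (ψ : LaurentSeries (kk A)) = meterS (kk A) p →
    ∀ P : Place (kk A) (Igusa.E (kk A) M), 0 ≤ P.ord (Igusa.jb (kk A) M) →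
      (∀ e, (N.p₁ e : Place (kk A) (Igusa.E (kk A) M)) ≠ P) → P.ord ψ = 0

variable {A M p hp hpM hA}

/-- `PeuRam` gives the abstract hypothesis `Peu`. -/
theorem peu_of_peuRam {E : Type*} [Field E] [Algebra Kbar E] [Algebra (FN (M * p)) E]
    {Γ : Subgroup (SemilinearAut Kbar E)} (hL : Lifts A M p Γ)
    {S : AddSubgroup (KV Kbar (FN (M * p)) p)} {x : KV Kbar (FN (M * p)) p}
    (hpeu : PeuRam A p (S ⊔ AddSubgroup.zmultiples x))
    (u : kummerUnits Kbar (FN (M * p)) p) (hux : KV.mk u = x) :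
    Peu A Γ (p : Kbar) p ((u : (FN (M * p))ˣ) : FN (M * p)) := by
  intro β hβ hfix hγ
  refine hpeu (β ^ p) β (pow_ne_zero _ hβ) ?_ rfl ?_
  · intro τ hτ
    obtain ⟨γ, hγΓ, hb, -⟩ := hL τ hτ
    rw [← hb]
    exact hfix γ hγΓ
  · intro τ hτ _ hV
    obtain ⟨γ, hγΓ, hb, hF⟩ := hL τ hτ
    rw [← hb]
    apply hγ γ hγΓ
    have hx : τ • x = x :=
      hV x (AddSubgroup.mem_sup_right (AddSubgroup.mem_zmultiples x))
    rw [← hux, KV.galois_smul_def, KV.semilinear_smul_mk, KV.mk_eq_mk_iff] at hx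
    obtain ⟨y, hy⟩ := hx
    refine ⟨(y : FN (M * p)), y.ne_zero, ?_⟩
    rw [hF]
    congr 1
    have h2 := congrArg (fun z : (FN (M * p))ˣ => (z : FN (M * p))) hy
    simp only [Units.val_mul, Units.val_pow_eq_pow_val] at h2
    rw [mul_comm ((u : (FN (M * p))ˣ) : FN (M * p)), h2]
    rfl

theorem branch_ne_of_not_node {Nd : Type*}
    {N : NodeData (kk A) (fun _ : Fin 2 => Igusa.E (kk A) M) Nd} (hM : MeterOK A M p N)
    {P : Place (kk A) (Igusa.E (kk A) M)}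
    (hP : ∀ e, (N.p₁ e : Place (kk A) (Igusa.E (kk A) M)) ≠ P) (s : Nd ⊕ Nd) :
    N.branch s ≠ (⟨0, P⟩ : Σ _ : Fin 2, Place (kk A) (Igusa.E (kk A) M)) := by
  intro h
  rcases s with e | e
  · have h1 : (⟨N.i₁ e, N.p₁ e⟩ : Σ _ : Fin 2, Place (kk A) (Igusa.E (kk A) M)) = ⟨0, P⟩ := h
    rw [Sigma.mk.injEq] at h1
    exact hP e (eq_of_heq h1.2)
  · have h1 : (⟨N.i₂ e, N.p₂ e⟩ : Σ _ : Fin 2, Place (kk A) (Igusa.E (kk A) M)) = ⟨0, P⟩ := h
    rw [Sigma.mk.injEq, hM.i₂ e] at h1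
    exact absurd h1.1 (by decide)

/-- **OUTPUT OF SUB-BLOCK END.** -/
theorem slopeMeter_of_cover {E : Type*} [Field E] [Algebra Kbar E] [Algebra (FN (M * p)) E]
    [IsScalarTower Kbar (FN (M * p)) E] [Algebra.IsIntegral (FN (M * p)) E]
    {T' : MultiRed Kbar E (kk A)
      (fun j : Fin 2 × (E ≃ₐ[FN (M * p)] E) => (fun _ : Fin 2 => Igusa.E (kk A) M) j.1)}
    (hC : SplitCover (Conc.TT A M p hp hpM hA) T') (hA' : T'.A = A)
    {Γ : Subgroup (SemilinearAut Kbar E)} {lc : E → Kbar} (hlc : IsLC Γ lc)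
    (hc : Comm (FN (M * p)) Γ) (hU : Unram T' Γ (p : Kbar)) {Nd : Type*}
    {N : NodeData (kk A) (fun _ : Fin 2 => Igusa.E (kk A) M) Nd}
    {b : Nd → (E ≃ₐ[FN (M * p)] E)} (hS : Slope T' Γ (p : Kbar) p (coverNodes N b))
    (hL : Lifts A M p Γ) (hM : MeterOK A M p N)
    {S : AddSubgroup (KV Kbar (FN (M * p)) p)} {x : KV Kbar (FN (M * p)) p}
    (hpeu : PeuRam A p (S ⊔ AddSubgroup.zmultiples x))
    (u : kummerUnits Kbar (FN (M * p)) p) (hux : KV.mk u = x) {h0 : E} (hh0 : h0 ≠ 0)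
    (hf : Inv Γ (algebraMap (FN (M * p)) E ((u : (FN (M * p))ˣ) : FN (M * p)) * h0 ^ p))
    (hred : (Conc.R1 A M p hp hpM hA).red ((u : (FN (M * p))ˣ) : FN (M * p)) ≠ 0) :
    ∃ κ : ℤ, SlopeMeter A M p
      ((Conc.R1 A M p hp hpM hA).red ((u : (FN (M * p))ˣ) : FN (M * p))) κ := by
  have hp0 : (p : Kbar) ≠ 0 := Nat.cast_ne_zero.2 hp.ne_zero
  have hpn : (p : Kbar) ∈ A.nonunits := hA
  have hpA : (p : Kbar) ∈ T'.A := by
    rw [hA']
    exact A.nonunits_subset hpn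
  have hpr : T'.redA (p : Kbar) = 0 := by
    have hR : (T'.R (0, 1)).A = A := (T'.A_eq _).trans hA'
    rw [← T'.redA_eq (0, 1), (T'.R (0, 1)).redA_eq_zero_iff (by rw [hR]; exact A.nonunits_subset hpn),
      hR]
    exact (ValuationSubring.mem_nonunits_iff A).1 hpn
  have hP' : Peu T'.A Γ (p : Kbar) p ((u : (FN (M * p))ˣ) : FN (M * p)) := by
    rw [hA']
    exact peu_of_peuRam hL hpeu u hux
  obtain ⟨c, c1, -, c3⟩ := const_slopes hC hlc hc hU hp0 hpA hpr hp.pos hS (Units.ne_zero _) u.2 hh0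
    hf hP'
  refine ⟨c 1 - c 0, fun ψ hψ P => ⟨fun hj => ?_, fun hj => ?_⟩⟩
  · by_cases hP : ∃ e, (N.p₁ e : Place (kk A) (Igusa.E (kk A) M)) = P
    · obtain ⟨e, rfl⟩ := hP
      have key : ∀ i1 i2 : Fin 2, i1 = 0 → i2 = 1 → ∀ Q : Place (kk A) (Igusa.E (kk A) M),
          (((Conc.TT A M p hp hpM hA).R i1).red ((u : (FN (M * p))ˣ) : FN (M * p)) ≠ 0 →
            (p : ℤ) ∣ Q.ord (((Conc.TT A M p hp hpM hA).R i1).red ((u : (FN (M * p))ˣ) : FN (M * p)))
              - (c i2 - c i1)) →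
          (p : ℤ) ∣ Q.ord ((Conc.R1 A M p hp hpM hA).red ((u : (FN (M * p))ˣ) : FN (M * p)))
              - (c 1 - c 0) := by
        rintro _ _ rfl rfl Q h
        exact h hred
      have h1 := key _ _ (hM.i₁ e) (hM.i₂ e) (N.p₁ e) (c1 e)
      rw [hM.node ψ hψ e]
      obtain ⟨d, hd⟩ := h1
      exact ⟨12 * ((p : ℤ) + 1) * d, by linear_combination (12 * ((p : ℤ) + 1)) * hd⟩
    · rw [not_exists] at hP
      rw [hM.other ψ hψ P hj hP, mul_zero, sub_zero]
      exact Dvd.dvd.mul_left (c3 0 P (branch_ne_of_not_node hM hP) hred) _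
  · refine c3 0 P (branch_ne_of_not_node hM fun e he => ?_) hred
    have := hM.noncusp e
    rw [he] at this
    exact absurd hj (not_lt.2 this)

end Fermat.Agent.MR.PLC.End
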