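import Fermat.Agent.MR.PLC.End.Abs

/-!
# MR / PLC / End : constant slopes (abstract main theorem of sub-block END).
-/

set_option autoImplicit false
set_option linter.unusedSectionVars false

noncomputable section

namespace Fermat.Agent.MR.PLC.End

open AlgebraicCurve Fermat.Agent.Lib.RR Fermat.Agent.GAL.RED Fermat.Agent.DR.Abs Fermat.Agent.S33.Cover

variable {K F E k : Type*} [Field K] [Field F] [Field E] [Algebra K F] [Algebra K E] [Algebra F E]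
  [IsScalarTower K F E] [Field k] {ι : Type*} {Fb : ι → Type*} [∀ i, Field (Fb i)]
  [∀ i, Algebra k (Fb i)] {Nd : Type*}

section one

variable {Fb₀ : Type*} [Field Fb₀] [Algebra k Fb₀] (R : RedData K E k Fb₀)

theorem val_of_red {ϖ : K} (hϖ : ϖ ≠ 0) {z : E} {n : ℤ}
    (h : R.red (z / algebraMap K E ϖ ^ n) ≠ 0) :
    R.O.valuation z = R.O.valuation (algebraMap K E ϖ) ^ n := by
  have h1 := R.red_ne_zero_iff_valuation.1 h
  rw [map_div₀, map_zpow₀] at h1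
  have h2 : R.O.valuation (algebraMap K E ϖ) ^ n ≠ 0 :=
    zpow_ne_zero _ ((map_ne_zero _).2 ((map_ne_zero _).2 hϖ))
  exact (div_eq_one_iff_eq h2).1 h1

theorem val_unif_lt {ϖ : K} (hA : ϖ ∈ R.A) (h0 : R.redA ϖ = 0) :
    R.O.valuation (algebraMap K E ϖ) < 1 := by
  rw [← R.red_eq_zero_iff (R.algebraMap_mem ϖ hA), R.red_algebraMap hA, h0, map_zero]

theorem val_const {ϖ a : K} (hϖ : ϖ ≠ 0) {n : ℤ} (h : R.A.valuation a = R.A.valuation ϖ ^ n) :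
    R.O.valuation (algebraMap K E a) = R.O.valuation (algebraMap K E ϖ) ^ n := by
  have h2 : R.A.valuation ϖ ^ n ≠ 0 := zpow_ne_zero _ ((map_ne_zero _).2 hϖ)
  have h1 : R.A.valuation (a / ϖ ^ n) = 1 := by
    rw [map_div₀, map_zpow₀, h, div_self h2]
  have h3 : R.redA (a / ϖ ^ n) ≠ 0 := R.redA_ne_zero_iff_valuation.2 h1
  have h4 : R.red (algebraMap K E a / algebraMap K E ϖ ^ n) ≠ 0 := by
    rw [← map_zpow₀, ← map_div₀, R.red_algebraMap']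
    exact (map_ne_zero _).2 h3
  exact val_of_red R hϖ h4

theorem zpow_inj_of_lt {Γ₀ : Type*} [LinearOrderedCommGroupWithZero Γ₀] {x : Γ₀} (h0 : x ≠ 0)
    (h1 : x < 1) {a b : ℤ} (h : x ^ a = x ^ b) : a = b :=
  zpow_right_injective₀ (zero_lt_iff.2 h0) h1.ne h

end one

/-- the hypothesis "all the Kummer classes attached to `u` have valuation divisible by `p`". -/
def Peu (A : ValuationSubring K) (Γ : Subgroup (SemilinearAut K E)) (ϖ : K) (p : ℕ) (u : F) : Prop :=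
  ∀ β : K, β ≠ 0 → (∀ γ ∈ Γ, SemilinearAut.baseAut γ (β ^ p) = β ^ p) →
    (∀ γ ∈ Γ, (∃ r : F, r ≠ 0 ∧ γ • algebraMap F E u = algebraMap F E (u * r ^ p)) →
      SemilinearAut.baseAut γ β = β) →
    ∃ n : ℤ, A.valuation (β ^ p) = A.valuation ϖ ^ ((p : ℤ) * n)

variable {T : MultiRed K F k Fb} {T' : MultiRed K E k (fun j : ι × (E ≃ₐ[F] E) => Fb j.1)}
  {Γ : Subgroup (SemilinearAut K E)} {lc : E → K} {ϖ : K} {p : ℕ}

/-- **the vertical valuations of `f = u h ^ p` are constant mod `p` on the fibres of `ι × G → ι`.** -/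
theorem dvd_sub_of_peu [IsAlgClosed K] (hC : SplitCover T T') (h : IsLC Γ lc) (hc : Comm F Γ)
    (hU : Unram T' Γ ϖ) (hϖ : ϖ ≠ 0) (hϖA : ϖ ∈ T'.A) (hϖ0 : T'.redA ϖ = 0) (hp : 0 < p)
    {u : F} (hu : u ≠ 0) {h0 : E} (hh0 : h0 ≠ 0) (hf : Inv Γ (algebraMap F E u * h0 ^ p))
    (hpeu : Peu T'.A Γ ϖ p u) (i : ι × (E ≃ₐ[F] E) → ℤ)
    (hi : ∀ w, (T'.R w).red ((algebraMap F E u * h0 ^ p) / algebraMap K E ϖ ^ i w) ≠ 0)
    (j : ι) (g g' : E ≃ₐ[F] E) : (p : ℤ) ∣ i (j, g') - i (j, g * g') := by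
  obtain ⟨β, hg, hβ, hg0, hginv, hβfix, hgf, hβγ⟩ := kummer_class h hc hp hu hh0 hf g
  obtain ⟨n, hn⟩ := hpeu β hβ hβfix hβγ
  obtain ⟨m, hm⟩ := hU hg hg0 hginv (j, g * g')
  set R := T'.R (j, g * g') with hR
  set f : E := algebraMap F E u * h0 ^ p with hfdef
  have hA : R.A = T'.A := T'.A_eq _
  have h1 : R.O.valuation f = R.O.valuation (algebraMap K E ϖ) ^ i (j, g * g') :=
    val_of_red R hϖ (hi _)
  have h2 : R.O.valuation (g f) = R.O.valuation (algebraMap K E ϖ) ^ i (j, g') := by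
    apply val_of_red R hϖ
    have h3 := hC.red_map j g' g (f / algebraMap K E ϖ ^ i (j, g'))
    rw [map_div₀, map_zpow₀, IsScalarTower.algebraMap_apply K F E ϖ, AlgEquiv.commutes,
      ← IsScalarTower.algebraMap_apply K F E ϖ] at h3
    rw [hR, h3]
    exact hi _
  have h3 : R.O.valuation hg = R.O.valuation (algebraMap K E ϖ) ^ m := val_of_red R hϖ hm
  have h4 : R.O.valuation (algebraMap K E (β ^ p)) =
      R.O.valuation (algebraMap K E ϖ) ^ ((p : ℤ) * n) := by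
    apply val_const R hϖ
    rw [hA]
    exact hn
  have hx0 : R.O.valuation (algebraMap K E ϖ) ≠ 0 := (map_ne_zero _).2 ((map_ne_zero _).2 hϖ)
  have hx1 : R.O.valuation (algebraMap K E ϖ) < 1 := by
    apply val_unif_lt R
    · rw [hA]; exact hϖA
    · rw [T'.redA_eq]; exact hϖ0
  rw [hgf, map_mul, map_mul, h4, map_pow, h1, h3, ← zpow_natCast, ← zpow_mul, ← zpow_add₀ hx0,
    ← zpow_add₀ hx0] at h2
  have h5 := zpow_inj_of_lt hx0 hx1 h2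
  exact ⟨n + m, by linarith⟩

/-- descent of the orders from the cover to the base. -/
theorem dvd_ord_sub [IsAlgClosed K] (hC : SplitCover T T') (hϖ : ϖ ≠ 0) (hp : 0 < p)
    {u : F} {h0 : E} (w : ι × (E ≃ₐ[F] E)) (n : ℤ) (hu : (T.R w.1).red u ≠ 0)
    (hn : (T'.R w).red ((algebraMap F E u * h0 ^ p) / algebraMap K E ϖ ^ n) ≠ 0)
    (P : Place k (Fb w.1)) :
    (p : ℤ) ∣ P.ord ((T'.R w).red ((algebraMap F E u * h0 ^ p) / algebraMap K E ϖ ^ n)) -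
      P.ord ((T.R w.1).red u) := by
  obtain ⟨β, hβ⟩ := IsAlgClosed.exists_pow_nat_eq (ϖ ^ n) hp
  have hβ0 : β ≠ 0 := by
    rintro rfl
    rw [zero_pow hp.ne'] at hβ
    exact zpow_ne_zero n hϖ hβ.symm
  have hβE : algebraMap K E β ≠ 0 := (map_ne_zero _).2 hβ0
  set y : E := h0 / algebraMap K E β with hy
  have h1 : (algebraMap F E u * h0 ^ p) / algebraMap K E ϖ ^ n = algebraMap F E u * y ^ p := by
    rw [hy, div_pow, ← map_pow, hβ, map_zpow₀, mul_div_assoc]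
  rw [h1] at hn ⊢
  have hu'' : (T'.R w).red (algebraMap F E u) = (T.R w.1).red u := hC.red_algebraMap w.1 w.2 u
  have hu' : (T'.R w).red (algebraMap F E u) ≠ 0 := by
    rw [hu'']
    exact hu
  have hu0 : algebraMap F E u ≠ 0 := (T'.R w).ne_zero_of_red_ne_zero hu'
  have hyp : y ^ p ∈ (T'.R w).O := by
    have : y ^ p = (algebraMap F E u * y ^ p) * (algebraMap F E u)⁻¹ := by
      field_simp
    rw [this]
    exact (T'.R w).O.mul_mem _ _ ((T'.R w).mem_of_red_ne_zero hn)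
      ((T'.R w).inv_mem_of_red_ne_zero hu')
  rw [(T'.R w).red_mul ((T'.R w).mem_of_red_ne_zero hu') hyp, (T'.R w).red_pow, hu''] at hn ⊢
  have hy0 : (T'.R w).red y ≠ 0 := by
    intro h0
    rw [h0, zero_pow hp.ne', mul_zero] at hn
    exact hn rfl
  have h2 := P.ord_zpow ((T'.R w).red y) (p : ℤ)
  rw [zpow_natCast] at h2
  rw [P.ord_mul hu (pow_ne_zero _ hy0), h2]
  exact ⟨P.ord ((T'.R w).red y), by ring⟩

/-- the divisor of `u h ^ p` is divisible by `p`. -/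
theorem dvd_ord_cover [Algebra.IsIntegral F E] {u : F} (hu0 : u ≠ 0)
    (hu : ∀ P : Place K F, (p : ℤ) ∣ P.ord u) {h0 : E} (hh0 : h0 ≠ 0) (P : Place K E) :
    (p : ℤ) ∣ P.ord (algebraMap F E u * h0 ^ p) := by
  have h2 := P.ord_zpow h0 (p : ℤ)
  rw [zpow_natCast] at h2
  rw [P.ord_mul ((map_ne_zero _).2 hu0) (pow_ne_zero _ hh0), h2, P.ord_restrict]
  exact dvd_add (Dvd.dvd.mul_left (hu _) _) (dvd_mul_right _ _)

theorem coverNodes_branch_ne {G : Type*} [Group G] {N : NodeData k Fb Nd} (b : Nd → G) {j : ι}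
    {P : Place k (Fb j)} (hP : ∀ s, N.branch s ≠ ⟨j, P⟩) (g : G) (s : (Nd × G) ⊕ (Nd × G)) :
    (coverNodes N b).branch s ≠ (⟨(j, g), P⟩ : Σ j : ι × G, Place k (Fb j.1)) := by
  let π : (Σ j : ι × G, Place k (Fb j.1)) → (Σ i, Place k (Fb i)) := fun s => ⟨s.1.1, s.2⟩
  intro h
  rcases s with ⟨e, g'⟩ | ⟨e, g'⟩
  · exact hP (Sum.inl e) (congrArg π h)
  · exact hP (Sum.inr e) (congrArg π h)

theorem int_aux1 {p X a i2 c1 c2 : ℤ} (h4 : p ∣ X - (i2 - c1)) (h2 : p ∣ X - a)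
    (h3 : p ∣ c2 - i2) : p ∣ a - (c2 - c1) := by
  have h5 := dvd_sub (dvd_sub h4 h2) h3
  have h6 : a - (c2 - c1) = X - (i2 - c1) - (X - a) - (c2 - i2) := by ring
  rw [h6]
  exact h5

theorem int_aux2 {p X a i1 i2 c1 c2 : ℤ} (h4 : p ∣ X - (i1 - i2)) (h2 : p ∣ X - a)
    (h3 : p ∣ c1 - i1) (h3' : p ∣ c2 - i2) : p ∣ a - (c1 - c2) := by
  have h5 := dvd_add (dvd_sub (dvd_sub h4 h2) h3) h3'
  have h6 : a - (c1 - c2) = X - (i1 - i2) - (X - a) - (c1 - i1) + (c2 - i2) := by ring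
  rw [h6]
  exact h5

theorem int_aux3 {p X a : ℤ} (h1 : p ∣ X) (h2 : p ∣ X - a) : p ∣ a := by
  have h5 := dvd_sub h1 h2
  have h6 : a = X - (X - a) := by ring
  rw [h6]
  exact h5

/-- **CONSTANT SLOPES** (abstract form). -/
theorem const_slopes [IsAlgClosed K] [Algebra.IsIntegral F E] (hC : SplitCover T T')
    (h : IsLC Γ lc) (hc : Comm F Γ)
    (hU : Unram T' Γ ϖ) (hϖ : ϖ ≠ 0) (hϖA : ϖ ∈ T'.A) (hϖ0 : T'.redA ϖ = 0) (hp : 0 < p)
    {N : NodeData k Fb Nd} {b : Nd → (E ≃ₐ[F] E)} (hS : Slope T' Γ ϖ p (coverNodes N b))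
    {u : F} (hu : u ≠ 0) (hdiv : ∀ P : Place K F, (p : ℤ) ∣ P.ord u) {h0 : E} (hh0 : h0 ≠ 0)
    (hf : Inv Γ (algebraMap F E u * h0 ^ p)) (hpeu : Peu T'.A Γ ϖ p u) :
    ∃ c : ι → ℤ,
      (∀ e, (T.R (N.i₁ e)).red u ≠ 0 →
        (p : ℤ) ∣ (N.p₁ e).ord ((T.R (N.i₁ e)).red u) - (c (N.i₂ e) - c (N.i₁ e))) ∧
      (∀ e, (T.R (N.i₂ e)).red u ≠ 0 →
        (p : ℤ) ∣ (N.p₂ e).ord ((T.R (N.i₂ e)).red u) - (c (N.i₁ e) - c (N.i₂ e))) ∧
      ∀ (j : ι) (P : Place k (Fb j)), (∀ s, N.branch s ≠ ⟨j, P⟩) → (T.R j).red u ≠ 0 →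
        (p : ℤ) ∣ P.ord ((T.R j).red u) := by
  have hf0 : algebraMap F E u * h0 ^ p ≠ 0 :=
    mul_ne_zero ((map_ne_zero _).2 hu) (pow_ne_zero _ hh0)
  obtain ⟨i, hi, s1, s2, s3⟩ := hS _ hf0 hf (dvd_ord_cover hu hdiv hh0)
  have hconst : ∀ (j : ι) (g : E ≃ₐ[F] E), (p : ℤ) ∣ i (j, 1) - i (j, g) := by
    intro j g
    have := dvd_sub_of_peu hC h hc hU hϖ hϖA hϖ0 hp hu hh0 hf hpeu i hi j g 1
    rwa [mul_one] at this
  refine ⟨fun j => i (j, 1), fun e he => ?_, fun e he => ?_, fun j P hP hj => ?_⟩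
  · have h1 := s1 (e, 1)
    have h2 := dvd_ord_sub hC hϖ hp (N.i₁ e, (1 : E ≃ₐ[F] E)) (i (N.i₁ e, 1)) he (hi _) (N.p₁ e)
    have h3 := hconst (N.i₂ e) (1 * b e)
    have h4 : (p : ℤ) ∣ (N.p₁ e).ord ((T'.R (N.i₁ e, 1)).red
        ((algebraMap F E u * h0 ^ p) / algebraMap K E ϖ ^ i (N.i₁ e, 1))) -
        (i (N.i₂ e, 1 * b e) - i (N.i₁ e, 1)) := h1
    exact int_aux1 h4 h2 h3
  · have h1 := s2 (e, (b e)⁻¹)
    have h2 := dvd_ord_sub hC hϖ hp (N.i₂ e, (b e)⁻¹ * b e) (i (N.i₂ e, (b e)⁻¹ * b e)) he (hi _)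
      (N.p₂ e)
    have h3 := hconst (N.i₁ e) (b e)⁻¹
    have h3' := hconst (N.i₂ e) ((b e)⁻¹ * b e)
    have h4 : (p : ℤ) ∣ (N.p₂ e).ord ((T'.R (N.i₂ e, (b e)⁻¹ * b e)).red
        ((algebraMap F E u * h0 ^ p) / algebraMap K E ϖ ^ i (N.i₂ e, (b e)⁻¹ * b e))) -
        (i (N.i₁ e, (b e)⁻¹) - i (N.i₂ e, (b e)⁻¹ * b e)) := h1
    exact int_aux2 h4 h2 h3 h3'
  · have h1 := s3 (j, 1) P (coverNodes_branch_ne b hP 1)
    have h2 := dvd_ord_sub hC hϖ hp (j, (1 : E ≃ₐ[F] E)) (i (j, 1)) hj (hi _) P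
    exact int_aux3 h1 h2

end Fermat.Agent.MR.PLC.End
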