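import Fermat.Agent.MR.PLC.End.Contract
import Fermat.Agent.MR.PLC.Ser.Field
import Fermat.Agent.S17.Unr.Infty

/-!
# MR / PLC / End : the contract `SerStatement` from helper40's block SER (`MR/PLC/Ser/{Canon,Field}.lean`).
-/

set_option autoImplicit false
set_option linter.unusedSectionVars false
set_option linter.style.haveILetI false
set_option synthInstance.maxHeartbeats 400000

noncomputable section

namespace Fermat.Agent.MR.PLC.End

open AlgebraicCurve ModularCurve Fermat.Agent.S24 Fermat.Agent.GAL Fermat.Agent.GAL.RED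
  Fermat.Agent.DR Fermat.Agent.DR.Abs Fermat.Agent.DR.Gal Fermat.Agent.S33.GalP

theorem exists_isCyc {p : ℕ} [NeZero p] {ζ : Kbar} (hζ : IsPrimitiveRoot ζ p) (τ : GQ) :
    ∃ a : ℕ, IsCyc p τ a := by
  have h1 : (τ ζ) ^ p = 1 := by rw [← map_pow, hζ.pow_eq_one, map_one]
  obtain ⟨a, -, ha⟩ := hζ.eq_pow_of_pow_eq_one h1
  refine ⟨a, fun μ hμ => ?_⟩
  obtain ⟨i, -, rfl⟩ := hζ.eq_pow_of_pow_eq_one hμ
  rw [map_pow, ← ha, ← pow_mul, ← pow_mul, mul_comm]

section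

variable {N p : ℕ} [NeZero N] [NeZero p]

/-- the chosen representatives of the classes of `S`. -/
def repS (S : AddSubgroup (KV Kbar (FN N) p)) : Set (FN N) :=
  Set.range (fun s : S => (((rep (s : KV Kbar (FN N) p) : kummerUnits Kbar (FN N) p) : (FN N)ˣ) : FN N))

theorem smul_rep_eq (σ : GQ) (s : KV Kbar (FN N) p) (v : kummerUnits Kbar (FN N) p)
    (h : σ • KV.mk v = s + KV.mk v) :
    ∃ y : FN N, y ≠ 0 ∧ gal N σ • ((v : (FN N)ˣ) : FN N) =
      (((rep s : kummerUnits Kbar (FN N) p) : (FN N)ˣ) : FN N) * ((v : (FN N)ˣ) : FN N) * y ^ p := by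
  rw [← mk_rep s, ← KV.mk_mul, KV.galois_smul_def, KV.semilinear_smul_mk,
    KV.mk_eq_mk_iff] at h
  obtain ⟨y, hy⟩ := h
  refine ⟨(y : FN N), y.ne_zero, ?_⟩
  have h2 := congrArg (fun z : (FN N)ˣ => (z : FN N)) hy
  simp only [Units.val_mul, Units.val_pow_eq_pow_val, Subgroup.coe_mul] at h2
  rw [mul_comm _ ((y : FN N) ^ p), h2]
  rfl

theorem smul_eq_pow_mul (σ : GQ) (a : ℕ) (v : kummerUnits Kbar (FN N) p)
    (h : σ • KV.mk v = a • KV.mk v) :
    ∃ y : FN N, y ≠ 0 ∧ gal N σ • ((v : (FN N)ˣ) : FN N) = ((v : (FN N)ˣ) : FN N) ^ a * y ^ p := by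
  rw [← KV.mk_pow, KV.galois_smul_def, KV.semilinear_smul_mk, KV.mk_eq_mk_iff] at h
  obtain ⟨y, hy⟩ := h
  refine ⟨(y : FN N), y.ne_zero, ?_⟩
  have h2 := congrArg (fun z : (FN N)ˣ => (z : FN N)) hy
  simp only [Units.val_mul, Units.val_pow_eq_pow_val, Subgroup.coe_pow] at h2
  rw [mul_comm _ ((y : FN N) ^ p), h2]
  rfl

theorem smul_eq_rep_mul (σ : GQ) (t : KV Kbar (FN N) p) (v : kummerUnits Kbar (FN N) p)
    (h : σ • KV.mk v = t) :
    ∃ y : FN N, y ≠ 0 ∧ gal N σ • ((v : (FN N)ˣ) : FN N) =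
      (((rep t : kummerUnits Kbar (FN N) p) : (FN N)ˣ) : FN N) * y ^ p := by
  rw [← mk_rep t, KV.galois_smul_def, KV.semilinear_smul_mk, KV.mk_eq_mk_iff] at h
  obtain ⟨y, hy⟩ := h
  refine ⟨(y : FN N), y.ne_zero, ?_⟩
  have h2 := congrArg (fun z : (FN N)ˣ => (z : FN N)) hy
  simp only [Units.val_mul, Units.val_pow_eq_pow_val] at h2
  rw [mul_comm _ ((y : FN N) ^ p), h2]
  rfl

/-- a Kummer unit has a `p`-th root in `Kbar((q))`. -/
theorem exists_root_series (v : kummerUnits Kbar (FN N) p) :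
    ∃ z : LaurentSeries Kbar, z ^ p = (((v : (FN N)ˣ) : FN N) : LaurentSeries Kbar) := by
  apply Ser.exists_pow_eq_laurent (Nat.cast_ne_zero.2 (NeZero.ne p))
  rw [← S17.Unr.oo_ord]
  exact v.2 _

end

/-- the canonical representative, without the normalisation of the leading coefficient. -/
theorem exists_rep_of_root {L E Γ : Type*} [Field L] [Field E] [Algebra L E] [Group Γ]
    [IsAlgClosed L] [CharZero L] (Sm : Ser.SerModel L E Γ) {p : ℕ} (hp : 0 < p) {ζ : L}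
    (hζ : IsPrimitiveRoot ζ p) {uE : E} (huE0 : uE ≠ 0)
    (horb : ∀ y : E, (Set.range fun γ : Γ => Sm.Φ γ • y).Finite)
    (hroot : ∀ γ : Γ, ∃ c : E, c ^ p = (Sm.Φ γ • uE) / uE) :
    ∃ h0 : E, h0 ≠ 0 ∧ ∀ τ : Γ, Sm.Φ τ • (uE * h0 ^ p) = uE * h0 ^ p := by
  have hc : Sm.lc uE ≠ 0 := Sm.lc_ne_zero huE0
  obtain ⟨b, hb⟩ := IsAlgClosed.exists_pow_nat_eq (Sm.lc uE)⁻¹ hp
  have hb0 : b ≠ 0 := by
    rintro rfl
    rw [zero_pow hp.ne'] at hb
    exact inv_ne_zero hc hb.symm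
  have hbE : algebraMap L E b ≠ 0 := (map_ne_zero _).2 hb0
  have hlc : Sm.lc (uE * algebraMap L E b ^ p) = 1 := by
    rw [Sm.lc_mul, Sm.lc_pow, Sm.lc_algebraMap, hb, mul_inv_cancel₀ hc]
  have hroot' : ∀ γ : Γ, ∃ c : E,
      c ^ p = (Sm.Φ γ • (uE * algebraMap L E b ^ p)) / (uE * algebraMap L E b ^ p) := by
    intro γ
    obtain ⟨c, hc'⟩ := hroot γ
    refine ⟨c * (Sm.Φ γ • algebraMap L E b) / algebraMap L E b, ?_⟩
    rw [smul_mul', smul_pow', div_pow, mul_pow, hc']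
    field_simp
  obtain ⟨d, hd0, hd⟩ := Sm.exists_fixed_rep hp hζ hlc (horb _) hroot'
  refine ⟨algebraMap L E b * d, mul_ne_zero hbE hd0, fun τ => ?_⟩
  have h1 : uE * (algebraMap L E b * d) ^ p = uE * algebraMap L E b ^ p * d ^ p := by
    rw [mul_pow, mul_assoc]
  rw [h1]
  exact hd τ

set_option maxHeartbeats 2000000 in
theorem serStatement : SerStatement := by
  intro N p _ _ hp A S x hrig hx u hux
  classical
  obtain ⟨ζ, hζ⟩ : ∃ ζ : Kbar, IsPrimitiveRoot ζ p :=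
    HasEnoughRootsOfUnity.exists_primitiveRoot Kbar p
  haveI := finite_KV N p
  haveI : Algebra.IsAlgebraic ℚ Kbar := AlgebraicClosure.isAlgebraic ℚ
  have hUfin : (repS S).Finite := Set.finite_range _
  -- stability
  have hSt : Ser.Stable (F₀ := modularFunctionFieldFull N) (A.inertiaSubgroupIn ℚ) p (repS S) := by
    rintro σ hσ _ ⟨s, rfl⟩
    obtain ⟨a, ha⟩ := exists_isCyc hζ σ
    have h1 : σ • (s : KV Kbar (FN N) p) ∈ S := by
      rw [hrig σ hσ a ha s s.2]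
      exact S.nsmul_mem s.2 a
    obtain ⟨y, hy0, hy⟩ := smul_eq_rep_mul σ (σ • (s : KV Kbar (FN N) p))
      (rep (s : KV Kbar (FN N) p)) (by rw [mk_rep])
    exact ⟨_, ⟨⟨_, h1⟩, rfl⟩, y, hy0, hy⟩
  haveI := Ser.serField_finiteDimensional (F₀ := modularFunctionFieldFull N) hp.pos hUfin
  haveI := Ser.serField_isGalois (F₀ := modularFunctionFieldFull N) hp.pos hUfin hζ
  set Sm := Ser.serModel hSt with hSm
  have hcov : IsSerCover A N Sm := by
    refine ⟨fun τ a => rfl, fun τ y => Ser.serAut_algebraMap hSt τ y, fun τ g z => ?_,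
      fun y => Ser.finite_orbit hp.pos hSt y, 
      fun y => Ser.coe_algebraMap_serField' (p := p) (U := repS S) y⟩
    obtain ⟨a, ha⟩ := exists_isCyc hζ (τ : GQ)
    refine (Ser.deck_comm hp.pos hζ hSt τ a ha ?_ g z).symm
    rintro _ ⟨s, rfl⟩
    exact smul_eq_pow_mul (τ : GQ) a (rep (s : KV Kbar (FN N) p)) (by
      rw [mk_rep]
      exact hrig τ τ.2 a ha s s.2)
  have hgen : IntermediateField.adjoin (FN N)
      {y : ↥(Ser.serField (modularFunctionFieldFull N) p (repS S)) |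
        ∃ v : kummerUnits Kbar (FN N) p, KV.mk v ∈ S ∧
          y ^ p = algebraMap (FN N) _ ((v : (FN N)ˣ) : FN N)} = ⊤ := by
    rw [eq_top_iff, ← Ser.serField_adjoin_roots_eq_top]
    apply IntermediateField.adjoin.mono
    rintro y ⟨_, ⟨s, rfl⟩, hy⟩
    exact ⟨rep (s : KV Kbar (FN N) p), by rw [mk_rep]; exact s.2, hy⟩
  have hrep : ∃ h0 : ↥(Ser.serField (modularFunctionFieldFull N) p (repS S)), h0 ≠ 0 ∧
      ∀ τ : ↥(A.inertiaSubgroupIn ℚ),
        Sm.Φ τ • (algebraMap (FN N) _ ((u : (FN N)ˣ) : FN N) * h0 ^ p) =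
          algebraMap (FN N) _ ((u : (FN N)ˣ) : FN N) * h0 ^ p := by
    refine exists_rep_of_root Sm hp.pos hζ ((map_ne_zero _).2 (Units.ne_zero _)) hcov.orb fun γ => ?_
    have hs := hx γ γ.2
    obtain ⟨y, hy0, hy⟩ := smul_rep_eq (γ : GQ) ((γ : GQ) • x - x) u (by rw [hux, sub_add_cancel])
    obtain ⟨z, hz⟩ := exists_root_series (rep ((γ : GQ) • x - x))
    have hzmem : z ∈ Ser.serField (modularFunctionFieldFull N) p (repS S) :=
      Ser.mem_serField_of_pow (u := (((rep ((γ : GQ) • x - x) : kummerUnits Kbar (FN N) p) :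
        (FN N)ˣ) : FN N)) ⟨⟨_, hs⟩, rfl⟩ hz
    have hzE : (⟨z, hzmem⟩ : ↥(Ser.serField (modularFunctionFieldFull N) p (repS S))) ^ p =
        algebraMap (FN N) _ (((rep ((γ : GQ) • x - x) : kummerUnits Kbar (FN N) p) :
        (FN N)ˣ) : FN N) := by
      apply Subtype.ext
      rw [Ser.coe_algebraMap_serField']
      exact hz
    refine ⟨⟨z, hzmem⟩ * algebraMap (FN N) _ y, ?_⟩
    have hu0 : algebraMap (FN N) (↥(Ser.serField (modularFunctionFieldFull N) p (repS S)))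
        ((u : (FN N)ˣ) : FN N) ≠ 0 := (map_ne_zero _).2 (Units.ne_zero _)
    rw [hcov.res, hy, mul_pow, hzE, map_mul, map_mul, map_pow, eq_div_iff hu0]
    ring

  exact ⟨↥(Ser.serField (modularFunctionFieldFull N) p (repS S)), inferInstance, inferInstance,
    inferInstance, inferInstance, inferInstance, inferInstance, Sm, hcov, hgen, hrep⟩

end Fermat.Agent.MR.PLC.End
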